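/-
S12 <= S15, block PF (architect helper9).  File `Pair`: the pointwise identities for the pair
`S + R`, `S - R`, consequences of `S05.XOnly.xc_add_add_xc_sub` and `xc_add_mul_xc_sub`.
-/
import Mathlib
import Fermat.Agent.S05.XOnly

set_option autoImplicit false

namespace Fermat.Agent.S12.PF

open WeierstrassCurve Fermat.Agent.S05.XOnly

variable {K : Type*} [Field K]

/-- `t(k) = 6 k² + b₂ k + b₄`. -/
def tt (W : WeierstrassCurve K) (k : K) : K := 6 * k ^ 2 + W.b₂ * k + W.b₄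

/-- `u(k) = 4 k³ + b₂ k² + 2 b₄ k + b₆` (the square of `2 y + a₁ x + a₃`). -/
def uu (W : WeierstrassCurve K) (k : K) : K := 4 * k ^ 3 + W.b₂ * k ^ 2 + 2 * W.b₄ * k + W.b₆

variable [DecidableEq K] {W : WeierstrassCurve K}

/-- Velu's partial fraction.  (`xc_add_add_xc_sub` + `ring`/`linear_combination`.) -/
theorem sum_pair {S R : W.toAffine.Point} (hS : S ≠ 0) (hR : R ≠ 0) (hx : xc S ≠ xc R) :
    (xc (S + R) + xc (S - R) - 2 * xc R) * (xc S - xc R) ^ 2 =
      tt W (xc R) * (xc S - xc R) + uu W (xc R) := by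
  have h := xc_add_add_xc_sub hS hR hx
  unfold tt uu
  linear_combination h

/-- (`eta_sq`, `two_nsmul_eq_zero_iff`.) -/
theorem uu_eq_zero {T : W.toAffine.Point} (hT : T ≠ 0) (h2 : 2 • T = 0) : uu W (xc T) = 0 := by
  have h := eta_sq hT
  rw [(two_nsmul_eq_zero_iff hT).1 h2] at h
  unfold uu
  rw [← h]
  ring

/-- (`eta_sq`, `two_nsmul_eq_zero_iff`.) -/
theorem uu_ne_zero {R : W.toAffine.Point} (hR : R ≠ 0) (h2 : 2 • R ≠ 0) : uu W (xc R) ≠ 0 := by
  have h := eta_sq hR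
  unfold uu
  rw [← h]
  exact pow_ne_zero 2 ((two_nsmul_eq_zero_iff hR).not.1 h2)

/-- (`xc_add_add_xc_sub`, `xc_add_mul_xc_sub`, `W.b_relation : 4 b₈ = b₂ b₆ - b₄²`, `he`;
`linear_combination` with a polynomial multiple of `he`.) -/
theorem prod_pair {e : K} (he : uu W e = 0) {S R : W.toAffine.Point} (hS : S ≠ 0) (hR : R ≠ 0)
    (hx : xc S ≠ xc R) :
    4 * ((xc (S + R) - e) * (xc (S - R) - e) * (xc S - xc R) ^ 2) =
      (2 * ((xc S - e) * (xc R - e)) - tt W e) ^ 2 := by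
  have hs := xc_add_add_xc_sub hS hR hx
  have hp := xc_add_mul_xc_sub hS hR hx
  have hb := W.b_relation
  unfold uu at he
  unfold tt
  linear_combination 4 * hp - 4 * e * hs - (4 * (xc S + xc R) + 4 * e + W.b₂) * he - hb

/-- translation by a point of order two.  (`T - R = -(T + R)`, `xc_neg`, `xc_add_add_xc_sub`,
`uu_eq_zero`; cancel `xc R - xc T ≠ 0`.) -/
theorem xc_add_two_torsion {T R : W.toAffine.Point} (hT : T ≠ 0) (h2 : 2 • T = 0) (hR : R ≠ 0)
    (hx : xc T ≠ xc R) :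
    2 * ((xc (T + R) - xc T) * (xc R - xc T)) = tt W (xc T) := by
  have hneg : -T = T := by
    rw [two_nsmul] at h2
    exact (eq_neg_of_add_eq_zero_left h2).symm
  have h1 := sum_pair hR hT (Ne.symm hx)
  rw [uu_eq_zero hT h2, add_zero, sub_eq_add_neg R T, hneg, add_comm R T] at h1
  have h0 : xc R - xc T ≠ 0 := sub_ne_zero.2 (Ne.symm hx)
  apply mul_right_cancel₀ h0
  linear_combination h1

/-- the form used in the product formula. -/
theorem prod_pair' (h02 : (2 : K) ≠ 0) {T : W.toAffine.Point} (hT : T ≠ 0) (h2 : 2 • T = 0)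
    {S R : W.toAffine.Point} (hS : S ≠ 0) (hR : R ≠ 0) (hx : xc S ≠ xc R) (hxT : xc T ≠ xc R) :
    (xc (S + R) - xc T) * (xc (S - R) - xc T) * (xc S - xc R) ^ 2 =
      ((xc R - xc T) * (xc S - xc (T + R))) ^ 2 := by
  have h1 := prod_pair (uu_eq_zero hT h2) hS hR hx
  have h3 := xc_add_two_torsion hT h2 hR hxT
  rw [← h3] at h1
  have h4 : (4 : K) ≠ 0 := by
    have : (4 : K) = 2 * 2 := by norm_num
    rw [this]; exact mul_ne_zero h02 h02
  apply mul_left_cancel₀ h4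
  rw [h1]
  ring

end Fermat.Agent.S12.PF
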