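/-
S12 <= S15, block PF (architect helper9).  File `Bad`: the non generic points have their
`x`-coordinates among the roots of a nonzero polynomial; points with a given `x`-coordinate.
-/
import Fermat.Agent.S12.PF.Pair

set_option autoImplicit false

noncomputable section

namespace Fermat.Agent.S12.PF

open Polynomial WeierstrassCurve Fermat.Agent.S05.XOnly

variable {K : Type*} [Field K] [DecidableEq K] {W : WeierstrassCurve K}

/-- `U = 4X³ + b₂X² + 2b₄X + b₆`. -/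
def badU (W : WeierstrassCurve K) : K[X] :=
  C 4 * X ^ 3 + C W.b₂ * X ^ 2 + C (2 * W.b₄) * X + C W.b₆

/-- `F₄ = X⁴ - b₄X² - 2b₆X - b₈`. -/
def badF (W : WeierstrassCurve K) : K[X] :=
  X ^ 4 - C W.b₄ * X ^ 2 - C (2 * W.b₆) * X - C W.b₈

omit [DecidableEq K] in
theorem eval_badU (x : K) : (badU W).eval x = uu W x := by
  simp only [badU, uu, eval_add, eval_mul, eval_C, eval_pow, eval_X]

omit [DecidableEq K] in
theorem eval_badF (x : K) :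
    (badF W).eval x = x ^ 4 - W.b₄ * x ^ 2 - 2 * W.b₆ * x - W.b₈ := by
  simp only [badF, eval_sub, eval_mul, eval_C, eval_pow, eval_X]

omit [DecidableEq K] in
theorem badU_ne_zero (h4 : (4 : K) ≠ 0) : badU W ≠ 0 := by
  intro h
  have hd : (badU W).degree = 3 := degree_cubic h4
  rw [h, degree_zero] at hd
  exact absurd hd (by decide)

omit [DecidableEq K] in
theorem badF_sub_ne_zero (c : K) : badF W - C c * badU W ≠ 0 := by
  intro h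
  have hc : (badF W - C c * badU W).coeff 4 = 1 := by
    unfold badF badU
    compute_degree!
  rw [h, coeff_zero] at hc
  exact zero_ne_one hc

theorem exists_lt_nsmul_eq {G : Type*} [AddGroup G] {Q : G} {N : ℕ} (hN : 0 < N) (hQ : N • Q = 0)
    (m : ℤ) : ∃ i < N, i • Q = m • Q := by
  have hN' : (N : ℤ) ≠ 0 := by exact_mod_cast hN.ne'
  have h0 : 0 ≤ m % N := Int.emod_nonneg _ hN'
  have h1 : m % N < N := Int.emod_lt_of_pos _ (by exact_mod_cast hN)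
  refine ⟨(m % N).toNat, by omega, ?_⟩
  rw [← natCast_zsmul, Int.toNat_of_nonneg h0]
  conv_rhs => rw [← Int.mul_ediv_add_emod m N]
  rw [add_zsmul, mul_zsmul', natCast_zsmul, hQ, smul_zero, zero_add]

/-- `B = U * ∏_{i < N} (F₄ - x(iQ) U)` with `U = 4X³ + b₂X² + 2b₄X + b₆` (nonzero as `4 ≠ 0`),
`F₄ = X⁴ - b₄X² - 2b₆X - b₈` (so `F₄ - c U` is monic of degree `4`).  If `2 S = 0` then `U(x_S) = 0`
(`uu_eq_zero`), otherwise `2 S = i • Q` with `i < N` and `S05.XOnly.xc_two_nsmul` applies. -/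
theorem exists_bad_poly (h02 : (2 : K) ≠ 0) {Q : W.toAffine.Point} {N : ℕ} (hN : 0 < N)
    (hQ : N • Q = 0) :
    ∃ B : K[X], B ≠ 0 ∧ ∀ S : W.toAffine.Point, S ≠ 0 → 2 • S ∈ AddSubgroup.zmultiples Q →
      B.eval (xc S) = 0 := by
  have h4 : (4 : K) ≠ 0 := by
    have : (4 : K) = 2 * 2 := by norm_num
    rw [this]
    exact mul_ne_zero h02 h02
  refine ⟨badU W * ∏ i ∈ Finset.range N, (badF W - C (xc (i • Q)) * badU W),
    mul_ne_zero (badU_ne_zero h4) (Finset.prod_ne_zero_iff.2 fun i _ => badF_sub_ne_zero _), ?_⟩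
  intro S hS hmem
  rw [eval_mul]
  by_cases h2 : 2 • S = 0
  · rw [eval_badU, uu_eq_zero hS h2, zero_mul]
  · obtain ⟨m, hm⟩ := AddSubgroup.mem_zmultiples_iff.1 hmem
    obtain ⟨i, hi, him⟩ := exists_lt_nsmul_eq hN hQ m
    rw [eval_prod, Finset.prod_eq_zero (Finset.mem_range.2 hi), mul_zero]
    rw [eval_sub, eval_mul, eval_C, eval_badU, eval_badF, him, hm, uu]
    rw [xc_two_nsmul hS h2, sub_self]

/-- (solve the quadratic equation in `y` (`IsAlgClosed.exists_root` or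
`IsAlgClosed.exists_eq_mul_self`-style), nonsingular because `Δ ≠ 0`:
`WeierstrassCurve.Affine.equation_iff_nonsingular_of_Δ_ne_zero` / `nonsingular_of_Δ_ne_zero`.) -/
theorem exists_point_xc [IsAlgClosed K] (hΔ : W.Δ ≠ 0) (x : K) :
    ∃ S : W.toAffine.Point, S ≠ 0 ∧ xc S = x := by
  have hd : (C (1 : K) * X ^ 2 + C (W.a₁ * x + W.a₃) * X +
      C (-(x ^ 3 + W.a₂ * x ^ 2 + W.a₄ * x + W.a₆))).degree = 2 := degree_quadratic one_ne_zero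
  obtain ⟨y, hy⟩ := IsAlgClosed.exists_root _ (by rw [hd]; decide)
  simp only [IsRoot.def, eval_add, eval_mul, eval_C, eval_pow, eval_X] at hy
  have heq : W.toAffine.Equation x y := by
    rw [Affine.equation_iff]
    linear_combination hy
  exact ⟨Affine.Point.some x y ((Affine.equation_iff_nonsingular_of_Δ_ne_zero hΔ).1 heq),
    Affine.Point.some_ne_zero _, rfl⟩

omit [DecidableEq K] in
theorem vieta_of_roots (h02 : (2 : K) ≠ 0) {e₁ e₂ e₃ : K} (h₁ : uu W e₁ = 0) (h₂ : uu W e₂ = 0)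
    (h₃ : uu W e₃ = 0) (h₁₂ : e₁ ≠ e₂) (h₁₃ : e₁ ≠ e₃) (h₂₃ : e₂ ≠ e₃) :
    W.b₂ = -4 * (e₁ + e₂ + e₃) ∧ W.b₄ = 2 * (e₁ * e₂ + e₁ * e₃ + e₂ * e₃) ∧
      W.b₆ = -4 * (e₁ * e₂ * e₃) := by
  unfold uu at h₁ h₂ h₃
  have d12 : e₁ - e₂ ≠ 0 := sub_ne_zero.2 h₁₂
  have d13 : e₁ - e₃ ≠ 0 := sub_ne_zero.2 h₁₃
  have d23 : e₂ - e₃ ≠ 0 := sub_ne_zero.2 h₂₃
  have A12 : 4 * (e₁ ^ 2 + e₁ * e₂ + e₂ ^ 2) + W.b₂ * (e₁ + e₂) + 2 * W.b₄ = 0 := by
    apply mul_left_cancel₀ d12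
    linear_combination h₁ - h₂
  have A13 : 4 * (e₁ ^ 2 + e₁ * e₃ + e₃ ^ 2) + W.b₂ * (e₁ + e₃) + 2 * W.b₄ = 0 := by
    apply mul_left_cancel₀ d13
    linear_combination h₁ - h₃
  have B : 4 * (e₁ + e₂ + e₃) + W.b₂ = 0 := by
    apply mul_left_cancel₀ d23
    linear_combination A12 - A13
  have hb2 : W.b₂ = -4 * (e₁ + e₂ + e₃) := by linear_combination B
  have hb4 : W.b₄ = 2 * (e₁ * e₂ + e₁ * e₃ + e₂ * e₃) := by
    apply mul_left_cancel₀ h02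
    linear_combination A12 - (e₁ + e₂) * B
  refine ⟨hb2, hb4, ?_⟩
  linear_combination h₁ - e₁ ^ 2 * hb2 - 2 * e₁ * hb4

/-- Vieta for the `2`-division cubic, in the only form we use. -/
theorem tt_eq_of_roots (h02 : (2 : K) ≠ 0) {e₁ e₂ e₃ : K} (h₁ : uu W e₁ = 0) (h₂ : uu W e₂ = 0)
    (h₃ : uu W e₃ = 0) (h₁₂ : e₁ ≠ e₂) (h₁₃ : e₁ ≠ e₃) (h₂₃ : e₂ ≠ e₃) :
    tt W e₁ = 2 * ((e₁ - e₂) * (e₁ - e₃)) := by
  obtain ⟨hb2, hb4, -⟩ := vieta_of_roots h02 h₁ h₂ h₃ h₁₂ h₁₃ h₂₃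
  rw [tt, hb2, hb4]
  ring

/-- Vieta: the sum of the roots. -/
theorem b₂_eq_of_roots (h02 : (2 : K) ≠ 0) {e₁ e₂ e₃ : K} (h₁ : uu W e₁ = 0) (h₂ : uu W e₂ = 0)
    (h₃ : uu W e₃ = 0) (h₁₂ : e₁ ≠ e₂) (h₁₃ : e₁ ≠ e₃) (h₂₃ : e₂ ≠ e₃) :
    W.b₂ = -4 * (e₁ + e₂ + e₃) ∧ W.b₄ = 2 * (e₁ * e₂ + e₁ * e₃ + e₂ * e₃) ∧
      W.b₆ = -4 * (e₁ * e₂ * e₃) :=
  vieta_of_roots h02 h₁ h₂ h₃ h₁₂ h₁₃ h₂₃

end Fermat.Agent.S12.PF

end
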