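/-
S12 <= S15, block PF (architect helper9): the multiplicative form of Velu's `x`-coordinate, purely
algebraic.  File `Half`: folding a product over `1 ≤ i < 2 m + 1` by `i ↔ 2 m + 1 - i`.
-/
import Mathlib

set_option autoImplicit false

namespace Fermat.Agent.S12.PF

/-- `∏_{1 ≤ i ≤ 2m} F i = ∏_{1 ≤ i ≤ m} F i * F (2m+1-i)`.
(`Finset.prod_Ico_consecutive` at `m + 1`, then `Finset.prod_Ico_reflect` on the second half,
`Finset.prod_mul_distrib`.) -/
@[to_additive sum_Ico_half]
theorem prod_Ico_half {M : Type*} [CommMonoid M] (F : ℕ → M) (m : ℕ) :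
    ∏ i ∈ Finset.Ico 1 (2 * m + 1), F i =
      ∏ i ∈ Finset.Ico 1 (m + 1), (F i * F (2 * m + 1 - i)) := by
  rw [← Finset.prod_Ico_consecutive F (show 1 ≤ m + 1 by omega) (show m + 1 ≤ 2 * m + 1 by omega),
    Finset.prod_mul_distrib]
  congr 1
  refine Finset.prod_nbij' (fun i => 2 * m + 1 - i) (fun i => 2 * m + 1 - i) ?_ ?_ ?_ ?_ ?_
  · intro i hi
    rw [Finset.mem_Ico] at hi ⊢
    omega
  · intro i hi
    rw [Finset.mem_Ico] at hi ⊢
    omega
  · intro i hi
    rw [Finset.mem_Ico] at hi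
    change 2 * m + 1 - (2 * m + 1 - i) = i
    omega
  · intro i hi
    rw [Finset.mem_Ico] at hi
    change 2 * m + 1 - (2 * m + 1 - i) = i
    omega
  · intro i hi
    rw [Finset.mem_Ico] at hi
    change F i = F (2 * m + 1 - (2 * m + 1 - i))
    congr 1
    omega

end Fermat.Agent.S12.PF
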