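/-
S12 <= S15, block PF (architect helper9).  File `Poly`: Velu's `x`-coordinate as a quotient
`PP / DD²` of polynomials, `N = 2 m + 1`.
-/
import Fermat.Agent.S12.PF.Half
import Fermat.Agent.S12.PF.Pair
import Fermat.Agent.Lib.Unif.Velu.Alg

set_option autoImplicit false

noncomputable section

namespace Fermat.Agent.S12.PF

open Polynomial WeierstrassCurve Fermat.Agent.S05.XOnly Fermat.Agent.Lib.Unif

variable {K : Type*} [Field K] [DecidableEq K] {W : WeierstrassCurve K}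

/-- `∏_{1 ≤ i ≤ m} (X - x(iQ))`. -/
def DD (Q : W.toAffine.Point) (m : ℕ) : K[X] :=
  ∏ i ∈ Finset.Ico 1 (m + 1), (X - C (xc (i • Q)))

/-- the numerator of Velu's `x`-coordinate. -/
def PP (Q : W.toAffine.Point) (m : ℕ) : K[X] :=
  X * DD Q m ^ 2 + ∑ i ∈ Finset.Ico 1 (m + 1),
    (C (tt W (xc (i • Q))) * (X - C (xc (i • Q))) + C (uu W (xc (i • Q)))) *
      ∏ j ∈ (Finset.Ico 1 (m + 1)).erase i, (X - C (xc (j • Q))) ^ 2

variable (Q : W.toAffine.Point) (m : ℕ)

theorem DD_monic : (DD Q m).Monic :=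
  monic_prod_of_monic _ _ fun _ _ => monic_X_sub_C _

theorem DD_natDegree : (DD Q m).natDegree = m := by
  rw [DD, natDegree_prod_of_monic _ _ fun _ _ => monic_X_sub_C _]
  simp

theorem Poly_lead_monic : (X * DD Q m ^ 2).Monic := monic_X.mul ((DD_monic Q m).pow 2)

theorem Poly_lead_natDegree : (X * DD Q m ^ 2).natDegree = 2 * m + 1 := by
  rw [monic_X.natDegree_mul ((DD_monic Q m).pow 2), (DD_monic Q m).natDegree_pow, DD_natDegree,
    natDegree_X]
  ring

theorem Poly_lead_degree : (X * DD Q m ^ 2).degree = ((2 * m + 1 : ℕ) : WithBot ℕ) := by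
  rw [degree_eq_natDegree (Poly_lead_monic Q m).ne_zero, Poly_lead_natDegree]

/-- the sum in `PP` has degree `< 2 m + 1`. -/
theorem Poly_sum_mem : (∑ i ∈ Finset.Ico 1 (m + 1),
    (C (tt W (xc (i • Q))) * (X - C (xc (i • Q))) + C (uu W (xc (i • Q)))) *
      ∏ j ∈ (Finset.Ico 1 (m + 1)).erase i, (X - C (xc (j • Q))) ^ 2) ∈
      degreeLT K (2 * m + 1) := by
  refine Submodule.sum_mem _ fun i hi => ?_
  rw [mem_degreeLT]
  refine lt_of_le_of_lt degree_le_natDegree ?_
  have h1 : (C (tt W (xc (i • Q))) * (X - C (xc (i • Q))) + C (uu W (xc (i • Q)))).natDegree ≤ 1 := by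
    compute_degree
  have h2 : (∏ j ∈ (Finset.Ico 1 (m + 1)).erase i, (X - C (xc (j • Q))) ^ 2).natDegree =
      2 * (m - 1) := by
    rw [natDegree_prod_of_monic _ _ fun _ _ => (monic_X_sub_C _).pow 2]
    have h3 : ∀ j ∈ (Finset.Ico 1 (m + 1)).erase i, ((X - C (xc (j • Q))) ^ 2).natDegree = 2 := by
      intro j _
      rw [(monic_X_sub_C _).natDegree_pow, natDegree_X_sub_C]
    rw [Finset.sum_congr rfl h3, Finset.sum_const, Finset.card_erase_of_mem hi]
    simp [mul_comm]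
  have h4 := natDegree_mul_le (p := C (tt W (xc (i • Q))) * (X - C (xc (i • Q))) +
    C (uu W (xc (i • Q)))) (q := ∏ j ∈ (Finset.Ico 1 (m + 1)).erase i, (X - C (xc (j • Q))) ^ 2)
  rw [h2] at h4
  have h5 : 1 ≤ m := by
    have := Finset.mem_Ico.mp hi
    omega
  exact_mod_cast (show _ < 2 * m + 1 by omega)

theorem Poly_const_mem (c : K) : C c * DD Q m ^ 2 ∈ degreeLT K (2 * m + 1) := by
  rw [mem_degreeLT]
  refine lt_of_le_of_lt degree_le_natDegree ?_
  have h1 := natDegree_C_mul_le c (DD Q m ^ 2)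
  rw [(DD_monic Q m).natDegree_pow, DD_natDegree] at h1
  exact_mod_cast (show _ < 2 * m + 1 by omega)

theorem Poly_monic_of_mem {R : K[X]} (hR : R ∈ degreeLT K (2 * m + 1)) :
    (X * DD Q m ^ 2 + R).Monic := by
  refine (Poly_lead_monic Q m).add_of_left ?_
  rw [Poly_lead_degree]
  exact mem_degreeLT.mp hR

theorem Poly_natDegree_of_mem {R : K[X]} (hR : R ∈ degreeLT K (2 * m + 1)) :
    (X * DD Q m ^ 2 + R).natDegree = 2 * m + 1 := by
  rw [natDegree_add_eq_left_of_degree_lt, Poly_lead_natDegree]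
  rw [Poly_lead_degree]
  exact mem_degreeLT.mp hR

theorem Poly_sub_eq (c : K) : PP Q m - C c * DD Q m ^ 2 = X * DD Q m ^ 2 +
    ((∑ i ∈ Finset.Ico 1 (m + 1),
    (C (tt W (xc (i • Q))) * (X - C (xc (i • Q))) + C (uu W (xc (i • Q)))) *
      ∏ j ∈ (Finset.Ico 1 (m + 1)).erase i, (X - C (xc (j • Q))) ^ 2) - C c * DD Q m ^ 2) := by
  rw [PP]
  ring

/-- every summand of the sum in `PP` has degree `≤ 1 + 2 (m - 1) < 2 m + 1`. -/
theorem PP_monic : (PP Q m).Monic := Poly_monic_of_mem Q m (Poly_sum_mem Q m)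

theorem PP_natDegree : (PP Q m).natDegree = 2 * m + 1 :=
  Poly_natDegree_of_mem Q m (Poly_sum_mem Q m)

/-- for every constant `c`, `PP - c DD²` is monic of degree `2 m + 1`. -/
theorem PP_sub_monic (c : K) : (PP Q m - C c * DD Q m ^ 2).Monic := by
  rw [Poly_sub_eq]
  exact Poly_monic_of_mem Q m (Submodule.sub_mem _ (Poly_sum_mem Q m) (Poly_const_mem Q m c))

theorem PP_sub_natDegree (c : K) : (PP Q m - C c * DD Q m ^ 2).natDegree = 2 * m + 1 := by
  rw [Poly_sub_eq]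
  exact Poly_natDegree_of_mem Q m (Submodule.sub_mem _ (Poly_sum_mem Q m) (Poly_const_mem Q m c))

end Fermat.Agent.S12.PF

end
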