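/-
S12 <= S15, block PF (architect helper9).  File `Eval`: `PP (x S) = veluX S * DD (x S)²`.
-/
import Fermat.Agent.S12.PF.Poly

set_option autoImplicit false

noncomputable section

namespace Fermat.Agent.S12.PF

open Polynomial WeierstrassCurve Fermat.Agent.S05.XOnly Fermat.Agent.Lib.Unif

variable {K : Type*} [Field K] [DecidableEq K] {W : WeierstrassCurve K}
  {Q : W.toAffine.Point} {m : ℕ}

/-- `(2m+1-i) • Q = -(i • Q)`. -/
theorem reflect_nsmul (hQ : (2 * m + 1) • Q = 0) {i : ℕ} (hi : i ≤ 2 * m + 1) :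
    (2 * m + 1 - i) • Q = -(i • Q) :=
  eq_neg_of_add_eq_zero_left (by rw [← add_nsmul, Nat.sub_add_cancel hi, hQ])

theorem le_of_mem_Ico_half {i : ℕ} (hi : i ∈ Finset.Ico 1 (m + 1)) : i ≤ 2 * m + 1 := by
  have := (Finset.mem_Ico.1 hi).2
  omega

theorem eval_DD (z : K) :
    (DD Q m).eval z = ∏ i ∈ Finset.Ico 1 (m + 1), (z - xc (i • Q)) := by
  rw [DD, eval_prod]
  exact Finset.prod_congr rfl fun i _ => by rw [eval_sub, eval_X, eval_C]

/-- the full product is the square of the half product. (`prod_Ico_half`,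
`(2m+1-i) • Q = -(i • Q)`, `xc_neg`.) -/
theorem prod_Ico_eq_sq (hQ : (2 * m + 1) • Q = 0) (z : K) :
    ∏ i ∈ Finset.Ico 1 (2 * m + 1), (z - xc (i • Q)) = (DD Q m).eval z ^ 2 := by
  rw [prod_Ico_half, eval_DD, ← Finset.prod_pow]
  refine Finset.prod_congr rfl fun i hi => ?_
  rw [reflect_nsmul hQ (le_of_mem_Ico_half hi), xc_neg, sq]

/-- same with the opposite sign. -/
theorem prod_Ico_eq_sq' (hQ : (2 * m + 1) • Q = 0) (z : K) :
    ∏ i ∈ Finset.Ico 1 (2 * m + 1), (xc (i • Q) - z) = (DD Q m).eval z ^ 2 := by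
  rw [prod_Ico_half, eval_DD, ← Finset.prod_pow]
  refine Finset.prod_congr rfl fun i hi => ?_
  rw [reflect_nsmul hQ (le_of_mem_Ico_half hi), xc_neg]
  ring

/-- a point outside `⟨Q⟩` has `x`-coordinate different from all `x(iQ)`. -/
theorem xc_ne_of_notMem {S : W.toAffine.Point} (hS : S ∉ AddSubgroup.zmultiples Q) {i : ℕ}
    (hi : i • Q ≠ 0) : xc S ≠ xc (i • Q) := by
  intro h
  have hS0 : S ≠ 0 := by
    rintro rfl
    exact hS (zero_mem _)
  have hmem : i • Q ∈ AddSubgroup.zmultiples Q :=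
    nsmul_mem (AddSubgroup.mem_zmultiples Q) i
  rcases eq_or_eq_neg_of_xc_eq hS0 hi h with h1 | h1
  · exact hS (h1 ▸ hmem)
  · exact hS (h1 ▸ neg_mem hmem)

theorem eval_DD_ne_zero (hne : ∀ i ∈ Finset.Ico 1 (2 * m + 1), i • Q ≠ 0)
    {S : W.toAffine.Point} (hS : S ∉ AddSubgroup.zmultiples Q) : (DD Q m).eval (xc S) ≠ 0 := by
  rw [eval_DD, Finset.prod_ne_zero_iff]
  intro i hi
  have hi' : i ∈ Finset.Ico 1 (2 * m + 1) := by
    rw [Finset.mem_Ico] at hi ⊢
    omega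
  exact sub_ne_zero.2 (xc_ne_of_notMem hS (hne i hi'))

/-- folded form of `veluX`. (`sum_Ico_half`, `S + (2m+1-i) • Q = S - i • Q`, `xc_neg`.) -/
theorem veluX_half (hQ : (2 * m + 1) • Q = 0) (S : W.toAffine.Point) :
    veluX W Q (2 * m + 1) S = xc S + ∑ i ∈ Finset.Ico 1 (m + 1),
      (xc (S + i • Q) + xc (S - i • Q) - 2 * xc (i • Q)) := by
  rw [veluX, sum_Ico_half]
  congr 1
  refine Finset.sum_congr rfl fun i hi => ?_
  rw [reflect_nsmul hQ (le_of_mem_Ico_half hi), xc_neg, ← sub_eq_add_neg]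
  ring

/-- **evaluation of the numerator.** (`veluX_half`, `sum_pair`, `Finset.mul_prod_erase`.) -/
theorem eval_PP (hQ : (2 * m + 1) • Q = 0) (hne : ∀ i ∈ Finset.Ico 1 (2 * m + 1), i • Q ≠ 0)
    {S : W.toAffine.Point} (hS : S ∉ AddSubgroup.zmultiples Q) :
    (PP Q m).eval (xc S) = veluX W Q (2 * m + 1) S * (DD Q m).eval (xc S) ^ 2 := by
  have hS0 : S ≠ 0 := by
    rintro rfl
    exact hS (zero_mem _)
  rw [veluX_half hQ, add_mul, Finset.sum_mul, PP, eval_add, eval_mul, eval_X, eval_pow,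
    eval_finsetSum]
  congr 1
  refine Finset.sum_congr rfl fun i hi => ?_
  have hi' : i ∈ Finset.Ico 1 (2 * m + 1) := by
    rw [Finset.mem_Ico] at hi ⊢
    omega
  have hR : i • Q ≠ 0 := hne i hi'
  have hp := sum_pair hS0 hR (xc_ne_of_notMem hS hR)
  have he : (∏ j ∈ (Finset.Ico 1 (m + 1)).erase i, (X - C (xc (j • Q))) ^ 2).eval (xc S) =
      ∏ j ∈ (Finset.Ico 1 (m + 1)).erase i, (xc S - xc (j • Q)) ^ 2 := by
    rw [eval_prod]
    exact Finset.prod_congr rfl fun j _ => by rw [eval_pow, eval_sub, eval_X, eval_C]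
  rw [eval_mul, he, eval_add, eval_mul, eval_sub, eval_X, eval_C, eval_C, eval_C, ← hp, mul_assoc,
    Finset.mul_prod_erase _ (fun j => (xc S - xc (j • Q)) ^ 2) hi, Finset.prod_pow, ← eval_DD]

end Fermat.Agent.S12.PF

end
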