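/-
S12 <= S15, block PF (architect helper9).  File `Shift`: translation invariance of `veluX`, and
distinctness of the `x(S + iQ)` for generic `S`.
-/
import Fermat.Agent.S05.XOnly
import Fermat.Agent.Lib.Unif.Velu.Alg

set_option autoImplicit false

namespace Fermat.Agent.S12.PF

open WeierstrassCurve Fermat.Agent.S05.XOnly Fermat.Agent.Lib.Unif

variable {K : Type*} [Field K] [DecidableEq K] {W : WeierstrassCurve K}
  {Q : W.toAffine.Point} {N : ℕ}

/-- shift by one, multiplicative version. -/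
theorem prod_range_shift_one {G M : Type*} [AddCommGroup G] [CommMonoid M] {Q : G} {N : ℕ}
    (hN : 0 < N) (hQ : N • Q = 0) (F : G → M) :
    ∏ i ∈ Finset.range N, F ((i + 1) • Q) = ∏ i ∈ Finset.range N, F (i • Q) := by
  obtain ⟨M', rfl⟩ : ∃ M', N = M' + 1 := ⟨N - 1, by omega⟩
  rw [Finset.prod_range_succ, Finset.prod_range_succ' (fun i => F (i • Q)), hQ, zero_smul]

/-- shift by `j`, multiplicative version. -/
theorem prod_range_shift_aux {G M : Type*} [AddCommGroup G] [CommMonoid M] {Q : G} {N : ℕ}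
    (hN : 0 < N) (hQ : N • Q = 0) (F : G → M) (j : ℕ) :
    ∏ i ∈ Finset.range N, F ((i + j) • Q) = ∏ i ∈ Finset.range N, F (i • Q) := by
  induction j with
  | zero => simp
  | succ j ih =>
    rw [← ih]
    have h : ∀ i : ℕ, F ((i + j) • Q) = F (i • Q + j • Q) := fun i => by rw [add_smul]
    have h' : ∀ i : ℕ, F ((i + (j + 1)) • Q) = F ((i + 1) • Q + j • Q) := fun i => by
      rw [← add_smul]
      congr 2
      omega
    simp only [h', h]
    exact prod_range_shift_one hN hQ (fun x => F (x + j • Q))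

/-- abstract reindexing: a function of `i • Q` summed over a full period is shift invariant.
(e.g. through `ZMod N`, or `Finset.sum_nbij'` with `i ↦ (i + j) % N`; `(i % N) • Q = i • Q`.) -/
theorem sum_range_shift {G M : Type*} [AddCommGroup G] [AddCommMonoid M] {Q : G} {N : ℕ}
    (hN : 0 < N) (hQ : N • Q = 0) (F : G → M) (j : ℕ) :
    ∑ i ∈ Finset.range N, F ((i + j) • Q) = ∑ i ∈ Finset.range N, F (i • Q) :=
  prod_range_shift_aux (M := Multiplicative M) hN hQ (fun x => Multiplicative.ofAdd (F x)) j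

/-- multiplicative version. -/
theorem prod_range_shift {G M : Type*} [AddCommGroup G] [CommMonoid M] {Q : G} {N : ℕ}
    (hN : 0 < N) (hQ : N • Q = 0) (F : G → M) (j : ℕ) :
    ∏ i ∈ Finset.range N, F ((i + j) • Q) = ∏ i ∈ Finset.range N, F (i • Q) :=
  prod_range_shift_aux hN hQ F j

/-- `veluX S = ∑_{0 ≤ i < N} x(S + iQ) - ∑_{1 ≤ i < N} x(iQ)`. -/
theorem veluX_eq_sum_range (hN : 0 < N) (S : W.toAffine.Point) :
    veluX W Q N S = ∑ i ∈ Finset.range N, xc (S + i • Q) - ∑ i ∈ Finset.Ico 1 N, xc (i • Q) := by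
  rw [veluX, Finset.sum_sub_distrib, Finset.range_eq_Ico, Finset.sum_eq_sum_Ico_succ_bot hN,
    zero_smul, add_zero, zero_add, add_sub_assoc]

/-- **translation invariance.** -/
theorem veluX_add_nsmul (hN : 0 < N) (hQ : N • Q = 0) (S : W.toAffine.Point) (j : ℕ) :
    veluX W Q N (S + j • Q) = veluX W Q N S := by
  rw [veluX_eq_sum_range hN, veluX_eq_sum_range hN,
    ← sum_range_shift hN hQ (fun x => xc (S + x)) j]
  congr 1
  refine Finset.sum_congr rfl fun i _ => ?_
  rw [add_smul, add_assoc, add_comm (j • Q)]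

/-- `2 S ∉ ⟨Q⟩` implies `S + iQ ∉ ⟨Q⟩` (abstract form). -/
theorem add_nsmul_notMem_aux {G : Type*} [AddCommGroup G] {Q S : G}
    (h2S : 2 • S ∉ AddSubgroup.zmultiples Q) (i : ℕ) : S + i • Q ∉ AddSubgroup.zmultiples Q := by
  intro h
  apply h2S
  have h1 : i • Q ∈ AddSubgroup.zmultiples Q :=
    (AddSubgroup.zmultiples Q).nsmul_mem (AddSubgroup.mem_zmultiples Q) _
  have h2 : S ∈ AddSubgroup.zmultiples Q := by
    have := (AddSubgroup.zmultiples Q).sub_mem h h1
    rwa [add_sub_cancel_right] at this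
  exact (AddSubgroup.zmultiples Q).nsmul_mem h2 _

/-- **distinctness.** (`eq_or_eq_neg_of_xc_eq`.) -/
theorem xc_injOn (hne : ∀ i ∈ Finset.Ico 1 N, i • Q ≠ 0) {S : W.toAffine.Point}
    (h2S : 2 • S ∉ AddSubgroup.zmultiples Q) :
    Set.InjOn (fun i : ℕ => xc (S + i • Q)) (Finset.range N : Set ℕ) := by
  have hne0 : ∀ i : ℕ, S + i • Q ≠ 0 := fun i h =>
    add_nsmul_notMem_aux h2S i (h ▸ (AddSubgroup.zmultiples Q).zero_mem)
  have key : ∀ i i' : ℕ, i ≤ i' → i' < N → i • Q = i' • Q → i = i' := by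
    intro i i' hle hlt h
    by_contra hcon
    have h1 : (i' - i) • Q = 0 := by
      have h2 : i' • Q = (i' - i) • Q + i • Q := by
        rw [← add_smul]
        congr 1
        omega
      rw [h2] at h
      exact (right_eq_add.1 h)
    exact hne (i' - i) (Finset.mem_Ico.2 ⟨by omega, by omega⟩) h1
  intro i hi i' hi' h
  have hi1 : i < N := Finset.mem_range.1 hi
  have hi2 : i' < N := Finset.mem_range.1 hi'
  rcases eq_or_eq_neg_of_xc_eq (hne0 i) (hne0 i') h with h3 | h3
  · have h4 : i • Q = i' • Q := add_left_cancel h3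
    rcases le_total i i' with hle | hle
    · exact key i i' hle hi2 h4
    · exact (key i' i hle hi1 h4.symm).symm
  · exfalso
    apply h2S
    have h5 : 2 • S = -((i + i') • Q) := by
      rw [two_smul, add_smul, eq_neg_iff_add_eq_zero]
      have h6 : S + i • Q + (S + i' • Q) = 0 := by rw [h3, neg_add_cancel]
      rw [← h6]
      abel
    rw [h5]
    exact (AddSubgroup.zmultiples Q).neg_mem
      ((AddSubgroup.zmultiples Q).nsmul_mem (AddSubgroup.mem_zmultiples Q) _)

/-- `2 S ∉ ⟨Q⟩` implies `S + iQ ∉ ⟨Q⟩`. -/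
theorem add_nsmul_notMem {S : W.toAffine.Point} (h2S : 2 • S ∉ AddSubgroup.zmultiples Q) (i : ℕ) :
    S + i • Q ∉ AddSubgroup.zmultiples Q :=
  add_nsmul_notMem_aux h2S i

end Fermat.Agent.S12.PF
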