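/-
S12 <= S15, block PF (architect helper9).  File `Factor`: for generic `S` the polynomial
`PP - veluX(S) DD²` is `∏ (X - x(S + iQ))`; formula (PF-ii).
-/
import Fermat.Agent.S12.PF.Eval
import Fermat.Agent.S12.PF.Shift

set_option autoImplicit false

noncomputable section

namespace Fermat.Agent.S12.PF

open Polynomial WeierstrassCurve Fermat.Agent.S05.XOnly Fermat.Agent.Lib.Unif

/-- a monic polynomial of degree `n` with `n` distinct known roots.
(`Polynomial.eq_of_degree_sub_lt_of_eval_finset_eq` with `s = (range n).image r`;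
`degree_sub_lt` for two monic polynomials of the same degree.) -/
theorem eq_prod_of_monic_of_roots {K : Type*} [Field K] [DecidableEq K] {P : K[X]} {n : ℕ}
    (hP : P.Monic) (hdeg : P.natDegree = n) (r : ℕ → K)
    (hinj : Set.InjOn r (Finset.range n : Set ℕ)) (hroot : ∀ i ∈ Finset.range n, P.eval (r i) = 0) :
    P = ∏ i ∈ Finset.range n, (X - C (r i)) := by
  have hQm : (∏ i ∈ Finset.range n, (X - C (r i))).Monic := monic_prod_X_sub_C r _
  have hQd : (∏ i ∈ Finset.range n, (X - C (r i))).natDegree = n := by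
    rw [natDegree_finsetProd_X_sub_C_eq_card, Finset.card_range]
  have hcard : ((Finset.range n).image r).card = n := by
    rw [Finset.card_image_of_injOn hinj, Finset.card_range]
  refine eq_of_degree_sub_lt_of_eval_finset_eq ((Finset.range n).image r) ?_ ?_
  · rw [hcard]
    have h1 : P.degree = (n : WithBot ℕ) := by rw [degree_eq_natDegree hP.ne_zero, hdeg]
    have h2 : (∏ i ∈ Finset.range n, (X - C (r i))).degree = (n : WithBot ℕ) := by
      rw [degree_eq_natDegree hQm.ne_zero, hQd]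
    have h3 := degree_sub_lt_left (h1.trans h2.symm) hP.ne_zero (hP.leadingCoeff.trans hQm.leadingCoeff.symm)
    rwa [h1] at h3
  · intro x hx
    obtain ⟨i, hi, rfl⟩ := Finset.mem_image.1 hx
    rw [hroot i hi, eval_prod]
    exact (Finset.prod_eq_zero hi (by simp)).symm

variable {K : Type*} [Field K] [DecidableEq K] {W : WeierstrassCurve K}
  {Q : W.toAffine.Point} {m : ℕ}

/-- (`eq_prod_of_monic_of_roots`, `PP_sub_monic`, `PP_sub_natDegree`, `xc_injOn`, `eval_PP` at
`S + i • Q`, `veluX_add_nsmul`, `add_nsmul_notMem`.) -/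
theorem factor_generic (hQ : (2 * m + 1) • Q = 0)
    (hne : ∀ i ∈ Finset.Ico 1 (2 * m + 1), i • Q ≠ 0) {S : W.toAffine.Point}
    (h2S : 2 • S ∉ AddSubgroup.zmultiples Q) :
    PP Q m - C (veluX W Q (2 * m + 1) S) * DD Q m ^ 2 =
      ∏ i ∈ Finset.range (2 * m + 1), (X - C (xc (S + i • Q))) := by
  refine eq_prod_of_monic_of_roots (PP_sub_monic Q m _) (PP_sub_natDegree Q m _)
    (fun i : ℕ => xc (S + i • Q)) (xc_injOn hne h2S) ?_
  intro i _
  show (PP Q m - C (veluX W Q (2 * m + 1) S) * DD Q m ^ 2).eval (xc (S + i • Q)) = 0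
  rw [eval_sub, eval_mul, eval_C, eval_pow, eval_PP hQ hne (add_nsmul_notMem h2S i),
    veluX_add_nsmul (Nat.succ_pos _) hQ, sub_self]

/-- **(PF-ii), half form.**  (evaluate `factor_generic` at `xc T`, `eval_PP` at `T`;
`∏ (e - a_i) = - ∏ (a_i - e)` for an odd number of factors.) -/
theorem pf_ii_half (hQ : (2 * m + 1) • Q = 0)
    (hne : ∀ i ∈ Finset.Ico 1 (2 * m + 1), i • Q ≠ 0) {S T : W.toAffine.Point}
    (h2S : 2 • S ∉ AddSubgroup.zmultiples Q) (hT : T ∉ AddSubgroup.zmultiples Q) :
    (veluX W Q (2 * m + 1) S - veluX W Q (2 * m + 1) T) * (DD Q m).eval (xc T) ^ 2 =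
      ∏ i ∈ Finset.range (2 * m + 1), (xc (S + i • Q) - xc T) := by
  have h := congrArg (Polynomial.eval (xc T)) (factor_generic hQ hne h2S)
  rw [eval_sub, eval_mul, eval_C, eval_pow, eval_PP hQ hne hT, eval_prod] at h
  have h1 : ∏ i ∈ Finset.range (2 * m + 1), (xc (S + i • Q) - xc T) =
      - ∏ i ∈ Finset.range (2 * m + 1), (X - C (xc (S + i • Q))).eval (xc T) := by
    have h2 : ∀ i ∈ Finset.range (2 * m + 1), xc (S + i • Q) - xc T =
        - (X - C (xc (S + i • Q))).eval (xc T) := by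
      intro i _
      simp
    rw [Finset.prod_congr rfl h2, Finset.prod_neg, Finset.card_range, pow_succ, pow_mul]
    simp
  rw [h1, ← h]
  ring

end Fermat.Agent.S12.PF

end
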