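/-
S12 <= S15, block PF (architect helper9).  File `GenI`: formula (PF-i) for generic `S`.
-/
import Fermat.Agent.S12.PF.Factor

set_option autoImplicit false

noncomputable section

namespace Fermat.Agent.S12.PF

open Polynomial WeierstrassCurve Fermat.Agent.S05.XOnly Fermat.Agent.Lib.Unif

variable {K : Type*} [Field K] [DecidableEq K] {W : WeierstrassCurve K}

/-- `∏_{1 ≤ i ≤ m} (X - x(T + iQ))`. -/
def HH (Q T : W.toAffine.Point) (m : ℕ) : K[X] :=
  ∏ i ∈ Finset.Ico 1 (m + 1), (X - C (xc (T + i • Q)))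

variable {Q : W.toAffine.Point} {m : ℕ}

theorem HH_monic (T : W.toAffine.Point) : (HH Q T m).Monic :=
  monic_prod_of_monic _ _ fun _ _ => monic_X_sub_C _

theorem HH_natDegree (T : W.toAffine.Point) : (HH Q T m).natDegree = m := by
  unfold HH
  rw [natDegree_prod_of_monic _ _ fun _ _ => monic_X_sub_C _]
  simp

/-- folding the product over a full period.  (`Finset.prod_range_eq_mul_Ico`/`prod_range_succ'`,
`prod_Ico_half`, `S + (2m+1-i) • Q = S - i • Q`.) -/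
theorem prod_range_fold (hQ : (2 * m + 1) • Q = 0) (S : W.toAffine.Point) (e : K) :
    ∏ i ∈ Finset.range (2 * m + 1), (xc (S + i • Q) - e) =
      (xc S - e) * ∏ i ∈ Finset.Ico 1 (m + 1), ((xc (S + i • Q) - e) * (xc (S - i • Q) - e)) := by
  rw [Finset.prod_range_eq_mul_Ico _ (Nat.succ_pos _), zero_smul, add_zero,
    prod_Ico_half (fun i => xc (S + i • Q) - e) m]
  congr 1
  refine Finset.prod_congr rfl fun i hi => ?_
  rw [Finset.mem_Ico] at hi
  have h1 : (2 * m + 1 - i) • Q = -(i • Q) := by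
    rw [eq_neg_iff_add_eq_zero, ← add_smul, Nat.sub_add_cancel (by omega), hQ]
  rw [h1, ← sub_eq_add_neg]

/-- (`prod_range_fold`, `prod_pair'` for `R = i • Q`, `Finset.prod_mul_distrib`,
`Finset.prod_pow`, `eval_prod`.) -/
theorem prod_range_mul_sq (h02 : (2 : K) ≠ 0) (hQ : (2 * m + 1) • Q = 0)
    (hne : ∀ i ∈ Finset.Ico 1 (2 * m + 1), i • Q ≠ 0) {S T : W.toAffine.Point}
    (hS : S ∉ AddSubgroup.zmultiples Q) (hT0 : T ≠ 0) (hT2 : 2 • T = 0)
    (hT : T ∉ AddSubgroup.zmultiples Q) :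
    (∏ i ∈ Finset.range (2 * m + 1), (xc (S + i • Q) - xc T)) * (DD Q m).eval (xc S) ^ 2 =
      (xc S - xc T) * ((DD Q m).eval (xc T) ^ 2 * (HH Q T m).eval (xc S) ^ 2) := by
  have hS0 : S ≠ 0 := fun h => hS (h ▸ (AddSubgroup.zmultiples Q).zero_mem)
  rw [prod_range_fold hQ, mul_assoc]
  congr 1
  unfold DD HH
  simp only [eval_prod, eval_sub, eval_X, eval_C]
  rw [← Finset.prod_pow, ← Finset.prod_pow, ← Finset.prod_pow, ← Finset.prod_mul_distrib,
    ← Finset.prod_mul_distrib]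
  refine Finset.prod_congr rfl fun i hi => ?_
  rw [Finset.mem_Ico] at hi
  have hi0 : i • Q ≠ 0 := hne i (Finset.mem_Ico.mpr ⟨hi.1, by omega⟩)
  rw [prod_pair' h02 hT0 hT2 hS0 hi0 (xc_ne_of_notMem hS hi0) (xc_ne_of_notMem hT hi0)]
  ring

/-- **(PF-i) for generic `S`.** (`pf_ii_half`, `prod_range_mul_sq`, cancel
`(DD Q m).eval (xc T) ^ 2 ≠ 0`.) -/
theorem pf_i_generic (h02 : (2 : K) ≠ 0) (hQ : (2 * m + 1) • Q = 0)
    (hne : ∀ i ∈ Finset.Ico 1 (2 * m + 1), i • Q ≠ 0) {S T : W.toAffine.Point}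
    (h2S : 2 • S ∉ AddSubgroup.zmultiples Q) (hT0 : T ≠ 0) (hT2 : 2 • T = 0)
    (hT : T ∉ AddSubgroup.zmultiples Q) :
    (veluX W Q (2 * m + 1) S - veluX W Q (2 * m + 1) T) * (DD Q m).eval (xc S) ^ 2 =
      (xc S - xc T) * (HH Q T m).eval (xc S) ^ 2 := by
  have hS : S ∉ AddSubgroup.zmultiples Q := by
    have := add_nsmul_notMem h2S 0
    rwa [zero_smul, add_zero] at this
  have h1 := pf_ii_half hQ hne h2S hT
  have h2 := prod_range_mul_sq h02 hQ hne hS hT0 hT2 hT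
  rw [← h1] at h2
  have h3 : (DD Q m).eval (xc T) ^ 2 ≠ 0 := pow_ne_zero _ (eval_DD_ne_zero hne hT)
  apply mul_left_cancel₀ h3
  linear_combination h2

end Fermat.Agent.S12.PF

end
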