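/-
S12 <= S15, block PF (architect helper9).  File `Main`: EXPORTS of the block:
`pf_i` (the dictionary formula), `pf_ii`, `f1` (the key identity).
`K` algebraically closed, `2 ≠ 0`, `Q` of exact order `2 m + 1`, `T` of order `2`.
-/
import Fermat.Agent.S12.PF.GenI
import Fermat.Agent.S12.PF.Bad

set_option autoImplicit false

noncomputable section

namespace Fermat.Agent.S12.PF

open Polynomial WeierstrassCurve Fermat.Agent.S05.XOnly Fermat.Agent.Lib.Unif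

variable {K : Type*} [Field K] [DecidableEq K] {W : WeierstrassCurve K}
  {Q : W.toAffine.Point} {m : ℕ}

private theorem main_notMem_aux (hQ : (2 * m + 1) • Q = 0) {T : W.toAffine.Point} (hT0 : T ≠ 0)
    (hT2 : 2 • T = 0) : T ∉ AddSubgroup.zmultiples Q := by
  intro hT
  obtain ⟨k, rfl⟩ := AddSubgroup.mem_zmultiples_iff.1 hT
  apply hT0
  have h1 : (2 * m + 1) • (k • Q) = 0 := by
    rw [smul_comm, hQ, smul_zero]
  have h2 : (2 * m) • (k • Q) = 0 := by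
    rw [mul_comm, mul_smul, hT2, smul_zero]
  rw [add_smul, h2, zero_add, one_smul] at h1
  exact h1

private theorem main_notMem_of_two {S : W.toAffine.Point}
    (h2S : 2 • S ∉ AddSubgroup.zmultiples Q) : S ∉ AddSubgroup.zmultiples Q :=
  fun h => h2S (AddSubgroup.nsmul_mem _ h 2)

private theorem main_reflect (hQ : (2 * m + 1) • Q = 0) {i : ℕ} (hi : i ∈ Finset.Ico 1 (m + 1)) :
    (2 * m + 1 - i) • Q = -(i • Q) := by
  rw [Finset.mem_Ico] at hi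
  rw [eq_neg_iff_add_eq_zero, ← add_smul, Nat.sub_add_cancel (by omega), hQ]

/-- **the polynomial identity.**  With `E := LHS - RHS` and `B` from `exists_bad_poly`, `E * B`
vanishes at every `x : K` (`exists_point_xc`; if `2 S ∈ ⟨Q⟩` by `B`, else by `pf_i_generic` and
`eval_PP`), so `E * B = 0` (`Polynomial.funext`, `K` infinite) and `E = 0`. -/
theorem poly_identity [IsAlgClosed K] (h02 : (2 : K) ≠ 0) (hΔ : W.Δ ≠ 0)
    (hQ : (2 * m + 1) • Q = 0) (hne : ∀ i ∈ Finset.Ico 1 (2 * m + 1), i • Q ≠ 0)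
    {T : W.toAffine.Point} (hT0 : T ≠ 0) (hT2 : 2 • T = 0)
    (hT : T ∉ AddSubgroup.zmultiples Q) :
    PP Q m - C (veluX W Q (2 * m + 1) T) * DD Q m ^ 2 = (X - C (xc T)) * HH Q T m ^ 2 := by
  obtain ⟨B, hB0, hB⟩ := exists_bad_poly h02 (Q := Q) (N := 2 * m + 1) (by omega) hQ
  have hEB : (PP Q m - C (veluX W Q (2 * m + 1) T) * DD Q m ^ 2 -
      (X - C (xc T)) * HH Q T m ^ 2) * B = 0 := by
    apply Polynomial.funext
    intro x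
    obtain ⟨S, hS0, rfl⟩ := exists_point_xc (W := W) hΔ x
    rw [eval_mul, eval_zero]
    by_cases h2S : 2 • S ∈ AddSubgroup.zmultiples Q
    · rw [hB S hS0 h2S, mul_zero]
    · have h1 := eval_PP hQ hne (main_notMem_of_two h2S)
      have h2 := pf_i_generic h02 hQ hne h2S hT0 hT2 hT
      have h3 : (PP Q m - C (veluX W Q (2 * m + 1) T) * DD Q m ^ 2 -
          (X - C (xc T)) * HH Q T m ^ 2).eval (xc S) = 0 := by
        simp only [eval_sub, eval_mul, eval_pow, eval_C, eval_X]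
        rw [h1]
        linear_combination h2
      rw [h3, zero_mul]
  exact sub_eq_zero.1 ((mul_eq_zero.1 hEB).resolve_right hB0)

/-- (`prod_Ico_half`; `T + (2m+1-i) • Q = -(T + i • Q)` because `-T = T`; `xc_neg`.) -/
theorem prod_Ico_eq_HH_sq (hQ : (2 * m + 1) • Q = 0) {T : W.toAffine.Point} (hT2 : 2 • T = 0)
    (z : K) :
    ∏ i ∈ Finset.Ico 1 (2 * m + 1), (z - xc (T + i • Q)) = (HH Q T m).eval z ^ 2 := by
  have hneg : -T = T := by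
    rw [neg_eq_iff_add_eq_zero, ← two_smul ℕ, hT2]
  rw [prod_Ico_half, HH, eval_prod, ← Finset.prod_pow]
  refine Finset.prod_congr rfl fun i hi => ?_
  have h1 : T + (2 * m + 1 - i) • Q = -(T + i • Q) := by
    rw [main_reflect hQ hi, neg_add, hneg]
  rw [h1, xc_neg]
  simp only [eval_sub, eval_X, eval_C]
  ring

/-- **(PF-i)**: the dictionary formula, for every `S ∉ ⟨Q⟩`.
(evaluate `poly_identity` at `xc S`; `eval_PP`, `prod_Ico_eq_sq`, `prod_Ico_eq_HH_sq`.) -/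
theorem pf_i [IsAlgClosed K] (h02 : (2 : K) ≠ 0) (hΔ : W.Δ ≠ 0)
    (hQ : (2 * m + 1) • Q = 0) (hne : ∀ i ∈ Finset.Ico 1 (2 * m + 1), i • Q ≠ 0)
    {T : W.toAffine.Point} (hT0 : T ≠ 0) (hT2 : 2 • T = 0)
    (hT : T ∉ AddSubgroup.zmultiples Q) {S : W.toAffine.Point}
    (hS : S ∉ AddSubgroup.zmultiples Q) :
    (veluX W Q (2 * m + 1) S - veluX W Q (2 * m + 1) T) *
        ∏ i ∈ Finset.Ico 1 (2 * m + 1), (xc S - xc (i • Q)) =
      (xc S - xc T) * ∏ i ∈ Finset.Ico 1 (2 * m + 1), (xc S - xc (T + i • Q)) := by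
  have h := congrArg (Polynomial.eval (xc S)) (poly_identity h02 hΔ hQ hne hT0 hT2 hT)
  simp only [eval_sub, eval_mul, eval_pow, eval_C, eval_X] at h
  rw [eval_PP hQ hne hS] at h
  rw [prod_Ico_eq_sq hQ, prod_Ico_eq_HH_sq hQ hT2]
  linear_combination h

/-- **(PF-ii)**. (`pf_ii_half`, `prod_Ico_eq_sq'`.) -/
theorem pf_ii (hQ : (2 * m + 1) • Q = 0) (hne : ∀ i ∈ Finset.Ico 1 (2 * m + 1), i • Q ≠ 0)
    {S T : W.toAffine.Point} (h2S : 2 • S ∉ AddSubgroup.zmultiples Q)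
    (hT : T ∉ AddSubgroup.zmultiples Q) :
    (veluX W Q (2 * m + 1) S - veluX W Q (2 * m + 1) T) *
        ∏ i ∈ Finset.Ico 1 (2 * m + 1), (xc (i • Q) - xc T) =
      ∏ i ∈ Finset.range (2 * m + 1), (xc (S + i • Q) - xc T) := by
  rw [prod_Ico_eq_sq' hQ]
  exact pf_ii_half hQ hne h2S hT

/-- one factor of `f1`: `(e₂ - x(T₁+R)) (x_R - e₁) = (e₂ - e₁) (x_R - e₃)`.
(`xc_add_two_torsion`, `tt_eq_of_roots`, `uu_eq_zero`.) -/
theorem f1_factor (h02 : (2 : K) ≠ 0) {T₁ T₂ T₃ R : W.toAffine.Point}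
    (h₁ : T₁ ≠ 0) (h₂ : T₂ ≠ 0) (h₃ : T₃ ≠ 0)
    (h₁' : 2 • T₁ = 0) (h₂' : 2 • T₂ = 0) (h₃' : 2 • T₃ = 0)
    (h₁₂ : xc T₁ ≠ xc T₂) (h₁₃ : xc T₁ ≠ xc T₃) (h₂₃ : xc T₂ ≠ xc T₃)
    (hR : R ≠ 0) (hx : xc T₁ ≠ xc R) :
    (xc T₂ - xc (T₁ + R)) * (xc R - xc T₁) = (xc T₂ - xc T₁) * (xc R - xc T₃) := by
  have h1 := xc_add_two_torsion h₁ h₁' hR hx
  rw [tt_eq_of_roots h02 (uu_eq_zero h₁ h₁') (uu_eq_zero h₂ h₂') (uu_eq_zero h₃ h₃') h₁₂ h₁₃ h₂₃]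
    at h1
  have h2 := mul_left_cancel₀ h02 h1
  linear_combination -h2

/-- **(F1)**: the key identity `(e₂' - e₁') g₁ g₂ = (e₂ - e₁)^N g₃`.
(`pf_i` at `S = T₂`, `T = T₁`; `f1_factor` for `R = i • Q`; `Finset.prod_mul_distrib`,
`Finset.prod_const`, `Nat.card_Ico`; `∏ (e₂ - k_i) = ∏ (k_i - e₂)` by `prod_Ico_eq_sq`,
`prod_Ico_eq_sq'`.) -/
theorem f1 [IsAlgClosed K] (h02 : (2 : K) ≠ 0) (hΔ : W.Δ ≠ 0)
    (hQ : (2 * m + 1) • Q = 0) (hne : ∀ i ∈ Finset.Ico 1 (2 * m + 1), i • Q ≠ 0)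
    {T₁ T₂ T₃ : W.toAffine.Point} (h₁ : T₁ ≠ 0) (h₂ : T₂ ≠ 0) (h₃ : T₃ ≠ 0)
    (h₁' : 2 • T₁ = 0) (h₂' : 2 • T₂ = 0) (h₃' : 2 • T₃ = 0)
    (h₁₂ : xc T₁ ≠ xc T₂) (h₁₃ : xc T₁ ≠ xc T₃) (h₂₃ : xc T₂ ≠ xc T₃) :
    (veluX W Q (2 * m + 1) T₂ - veluX W Q (2 * m + 1) T₁) *
        ((∏ i ∈ Finset.Ico 1 (2 * m + 1), (xc (i • Q) - xc T₁)) *
          ∏ i ∈ Finset.Ico 1 (2 * m + 1), (xc (i • Q) - xc T₂)) =
      (xc T₂ - xc T₁) ^ (2 * m + 1) * ∏ i ∈ Finset.Ico 1 (2 * m + 1), (xc (i • Q) - xc T₃) := by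
  have hn₁ := main_notMem_aux hQ h₁ h₁'
  have hn₂ := main_notMem_aux hQ h₂ h₂'
  have h := pf_i h02 hΔ hQ hne h₁ h₁' hn₁ hn₂
  have hsw : ∏ i ∈ Finset.Ico 1 (2 * m + 1), (xc (i • Q) - xc T₂) =
      ∏ i ∈ Finset.Ico 1 (2 * m + 1), (xc T₂ - xc (i • Q)) := by
    rw [prod_Ico_eq_sq hQ, prod_Ico_eq_sq' hQ]
  have hprod : (∏ i ∈ Finset.Ico 1 (2 * m + 1), (xc T₂ - xc (T₁ + i • Q))) *
      ∏ i ∈ Finset.Ico 1 (2 * m + 1), (xc (i • Q) - xc T₁) =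
      (xc T₂ - xc T₁) ^ (2 * m) * ∏ i ∈ Finset.Ico 1 (2 * m + 1), (xc (i • Q) - xc T₃) := by
    rw [← Finset.prod_mul_distrib]
    rw [Finset.prod_congr rfl fun i hi => f1_factor h02 h₁ h₂ h₃ h₁' h₂' h₃' h₁₂ h₁₃ h₂₃
      (hne i hi) (xc_ne_of_notMem hn₁ (hne i hi))]
    rw [Finset.prod_mul_distrib, Finset.prod_const, Nat.card_Ico]
    congr 2
  rw [hsw, pow_succ]
  linear_combination (∏ i ∈ Finset.Ico 1 (2 * m + 1), (xc (i • Q) - xc T₁)) * h +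
    (xc T₂ - xc T₁) * hprod

/-- a point of order two is not in a cyclic group of odd order. -/
theorem two_torsion_notMem (hQ : (2 * m + 1) • Q = 0) {T : W.toAffine.Point} (hT0 : T ≠ 0)
    (hT2 : 2 • T = 0) : T ∉ AddSubgroup.zmultiples Q :=
  main_notMem_aux hQ hT0 hT2

end Fermat.Agent.S12.PF

end
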